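/-
S17 / PROGRAM MW, strand W, leaf W-CORE (helper97): ABSTRACT WEAK MORDELL–WEIL.

`J` an abelian group with an additive action of `G_ℚ = Gal(ℚ̄/ℚ)`, `ℓ` an odd prime, `S ∋ ℓ` a
finite set of primes.  If

* `J[ℓ]` is finite,
* every `y : J` is fixed by `Gal(ℚ̄/E)` for a number field `E` (smoothness),
* every inertia group at a prime `q ∉ S` fixes every `y` with `ℓ • y` Galois-fixed,
* every Galois-fixed `x` is `ℓ • y` for some `y : J`,

then `ℓ • J^{G_ℚ}` has finite index in `J^{G_ℚ}`.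

Proof: `M := J[ℓ]` is a finite discrete `𝔽_ℓ[G_ℚ]`-module of level `S` (`isDisc_torsRep`), the
Kummer cochain `σ ↦ σ y − y` of an `ℓ`-th root `y` of a fixed point is a level-`S` cocycle
(`kum_mem_Z1`), two fixed points with the same Kummer class differ by `ℓ • z`, `z` fixed
(`sub_mem_range_of_kum`), and `H¹(G_S, M)` is finite (`S55.Count.Uncond.exists_inv_hyp`).

* `exists_isUnramifiedOutside_fixing` : a point with open stabiliser which is fixed by all inertia
  groups outside `S` is fixed by `Gal(ℚ̄/F)`, `F` finite and unramified outside `S`;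
* `torsRep`, `isDisc_torsRep`        : the `ℓ`-torsion as an object of `Rep (ZMod ℓ) G_ℚ`;
* `kum`, `kum_mem_Z1`                : the Kummer cocycle;
* `finiteIndex_range_nsmul`          : the theorem.
-/
import Fermat.Agent.S55.Count.Uncond

set_option autoImplicit false

open CategoryTheory groupCohomology ExtCitation

namespace Fermat.Agent.S17.W.AbstractWeakMW

open Fermat.Agent.S55 Fermat.Agent.S55.Abs Fermat.Agent.S55.Count

local notation "Qb" => AlgebraicClosure ℚ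

attribute [local instance] Glue.isAlgebraicQbar_lg Glue.isAlgClosureQbar_lg Glue.normalQbar_lg

/-! ### The level of a point -/

section LevelFix

variable {X : Type*} [MulAction GQ X] (S : Finset Nat.Primes)

/-- A point with open stabiliser which is fixed by every inertia group at the primes outside `S`
is fixed by `Gal(ℚ̄/F)` for a finite extension `F` of `ℚ` unramified outside `S`. -/
theorem exists_isUnramifiedOutside_fixing (y : X)
    (hopen : ∃ E : IntermediateField ℚ Qb, FiniteDimensional ℚ E ∧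
      ∀ σ : GQ, (∀ e ∈ E, σ e = e) → σ • y = y)
    (hin : ∀ q : Nat.Primes, q ∉ S → ∀ A : ValuationSubring Qb, A.LiesOverPrime (q : ℕ) →
      ∀ g ∈ A.inertiaSubgroupIn ℚ, g • y = y) :
    ∃ F : IntermediateField ℚ Qb, F.IsUnramifiedOutside S ∧
      ∀ s ∈ F.fixingSubgroup, s • y = y := by
  classical
  have hgal : IsGalois ℚ Qb := ⟨⟩
  obtain ⟨E, hEfd, hE⟩ := hopen
  have := hEfd
  have hEH : E.fixingSubgroup ≤ MulAction.stabilizer GQ y := by
    intro s hs
    rw [MulAction.mem_stabilizer_iff]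
    exact hE s (fun e he => (IntermediateField.mem_fixingSubgroup_iff E s).1 hs e he)
  have hopenH : IsOpen ((MulAction.stabilizer GQ y : Subgroup GQ) : Set GQ) :=
    Subgroup.isOpen_mono hEH (IntermediateField.fixingSubgroup_isOpen E)
  have hclosed : IsClosed ((MulAction.stabilizer GQ y : Subgroup GQ) : Set GQ) :=
    Subgroup.isClosed_of_isOpen _ hopenH
  let N : ClosedSubgroup GQ := ⟨MulAction.stabilizer GQ y, hclosed⟩
  let F : IntermediateField ℚ Qb := IntermediateField.fixedField (MulAction.stabilizer GQ y)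
  have hfix : F.fixingSubgroup = MulAction.stabilizer GQ y :=
    InfiniteGalois.fixingSubgroup_fixedField N
  have hle : F ≤ E := by
    rw [← InfiniteGalois.fixedField_fixingSubgroup E, IntermediateField.le_iff_le, hfix]
    exact hEH
  have hFfd : FiniteDimensional ℚ F :=
    FiniteDimensional.of_injective (IntermediateField.inclusion hle).toLinearMap
      (IntermediateField.inclusion_injective hle)
  refine ⟨F, ⟨hFfd, fun q hq A hA g hg => ?_⟩, fun s hs => ?_⟩
  · rw [hfix, MulAction.mem_stabilizer_iff]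
    exact hin q hq A hA g hg
  · rw [hfix] at hs
    exact MulAction.mem_stabilizer_iff.1 hs

end LevelFix

/-! ### The `ℓ`-torsion as a representation -/

section Tors

variable (J : Type) [AddCommGroup J] [DistribMulAction GQ J] (ℓ : ℕ)

/-- The carrier of the `ℓ`-torsion. -/
abbrev TT : Type := ↥(Submodule.torsionBy ℤ J (ℓ : ℤ))

omit [DistribMulAction GQ J] in
variable {J ℓ} in
theorem nsmul_coe_TT (t : TT J ℓ) : ℓ • (t : J) = 0 := by
  have h := (Submodule.mem_torsionBy_iff _ _).1 t.2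
  rwa [natCast_zsmul] at h

omit [DistribMulAction GQ J] in
variable {J ℓ} in
theorem nsmul_TT (t : TT J ℓ) : ℓ • t = 0 :=
  Subtype.ext (nsmul_coe_TT t)

/-- The `ZMod ℓ`-module structure of the `ℓ`-torsion. -/
noncomputable abbrev modTT : Module (ZMod ℓ) (TT J ℓ) :=
  AddCommGroup.zmodModule (n := ℓ) (fun t => nsmul_TT t)

attribute [local instance] modTT

variable {J ℓ} in
theorem smul_mem_TT (σ : GQ) (t : TT J ℓ) :
    σ • (t : J) ∈ Submodule.torsionBy ℤ J (ℓ : ℤ) := by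
  rw [Submodule.mem_torsionBy_iff, natCast_zsmul, ← smul_comm σ ℓ (t : J), nsmul_coe_TT,
    smul_zero]

/-- The action of `σ` on the `ℓ`-torsion, as an additive map. -/
noncomputable def actTT (σ : GQ) : TT J ℓ →+ TT J ℓ where
  toFun t := ⟨σ • (t : J), smul_mem_TT σ t⟩
  map_zero' := Subtype.ext (smul_zero σ)
  map_add' t t' := Subtype.ext (smul_add σ (t : J) (t' : J))

/-- The Galois representation on the `ℓ`-torsion. -/
noncomputable def rhoTT : Representation (ZMod ℓ) GQ (TT J ℓ) where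
  toFun σ := AddMonoidHom.toZModLinearMap ℓ (actTT J ℓ σ)
  map_one' := LinearMap.ext fun t => Subtype.ext (one_smul GQ (t : J))
  map_mul' σ τ := LinearMap.ext fun t => Subtype.ext (mul_smul σ τ (t : J))

/-- The `ℓ`-torsion of `J` as an object of `Rep (ZMod ℓ) G_ℚ`. -/
noncomputable def torsRep : Rep.{0} (ZMod ℓ) GQ := Rep.of (rhoTT J ℓ)

variable {J ℓ} in
/-- The underlying point of an element of the torsion module. -/
def pt (m : torsRep J ℓ) : J :=
  Subtype.val (p := fun x : J => x ∈ Submodule.torsionBy ℤ J (ℓ : ℤ)) m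

variable {J ℓ} in
theorem pt_ρ (σ : GQ) (m : torsRep J ℓ) : pt ((torsRep J ℓ).ρ σ m) = σ • pt m := rfl

variable {J ℓ} in
theorem nsmul_pt (m : torsRep J ℓ) : ℓ • pt m = 0 :=
  nsmul_coe_TT (J := J) (ℓ := ℓ) m

variable {J ℓ} in
theorem pt_injective {m m' : torsRep J ℓ} (h : pt m = pt m') : m = m' :=
  Subtype.ext (p := fun x : J => x ∈ Submodule.torsionBy ℤ J (ℓ : ℤ)) h

variable {J ℓ} in
theorem pt_add (m m' : torsRep J ℓ) : pt (m + m') = pt m + pt m' := rfl

variable {J ℓ} in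
theorem pt_sub (m m' : torsRep J ℓ) : pt (m - m') = pt m - pt m' := rfl

instance finite_torsRep [Finite (TT J ℓ)] : Module.Finite (ZMod ℓ) (torsRep J ℓ) :=
  inferInstanceAs (Module.Finite (ZMod ℓ) (TT J ℓ))

variable {J ℓ} in
/-- The `ℓ`-torsion is a discrete module of level `S`. -/
theorem isDisc_torsRep [Fact ℓ.Prime] [Finite (TT J ℓ)] (S : Finset Nat.Primes)
    (hopen : ∀ y : J, ∃ E : IntermediateField ℚ Qb, FiniteDimensional ℚ E ∧
      ∀ σ : GQ, (∀ e ∈ E, σ e = e) → σ • y = y)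
    (hinert : ∀ q : Nat.Primes, q ∉ S → ∀ A : ValuationSubring Qb, A.LiesOverPrime (q : ℕ) →
      ∀ σ ∈ A.inertiaSubgroupIn ℚ, ∀ y : J, ℓ • y = 0 → σ • y = y) :
    IsDisc (globalLevel S) (torsRep J ℓ) := by
  have hsm : ∀ m : torsRep J ℓ, ∃ F : IntermediateField ℚ Qb, FiniteDimensional ℚ F ∧
      ∀ s ∈ F.fixingSubgroup, (torsRep J ℓ).ρ s m = m := by
    intro m
    obtain ⟨E, hEfd, hE⟩ := hopen (pt m)
    refine ⟨E, hEfd, fun s hs => pt_injective ?_⟩
    rw [pt_ρ]
    exact hE s (fun e he => (IntermediateField.mem_fixingSubgroup_iff E s).1 hs e he)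
  have hMur : ∀ q : Nat.Primes, q ∉ S → ∀ A : ValuationSubring Qb, A.LiesOverPrime (q : ℕ) →
      ∀ g ∈ A.inertiaSubgroupIn ℚ, (torsRep J ℓ).ρ g = 1 := by
    intro q hq A hA g hg
    refine LinearMap.ext fun m => pt_injective ?_
    rw [pt_ρ]
    exact hinert q hq A hA g hg (pt m) (nsmul_pt m)
  obtain ⟨F₀, hF₀, -, h⟩ :=
    Glue.exists_isUnramifiedOutside_acts_trivially (torsRep J ℓ) hsm hMur
  refine ⟨F₀.fixingSubgroup, ⟨F₀, hF₀, rfl⟩, fun s hs m => ?_⟩
  rw [h s hs]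
  rfl

/-! ### The Kummer cocycle -/

variable {J ℓ} in
theorem kum_mem (y : J) (hy : ∀ τ : GQ, τ • (ℓ • y) = ℓ • y) (σ : GQ) :
    σ • y - y ∈ Submodule.torsionBy ℤ J (ℓ : ℤ) := by
  rw [Submodule.mem_torsionBy_iff, natCast_zsmul, nsmul_sub, ← smul_comm σ ℓ y, hy σ, sub_self]

variable {J} in
/-- The Kummer cochain `σ ↦ σ y − y` of a point `y` with `ℓ • y` Galois-fixed. -/
noncomputable def kum (y : J) (hy : ∀ τ : GQ, τ • (ℓ • y) = ℓ • y) : GQ → torsRep J ℓ :=
  fun σ => (⟨σ • y - y, kum_mem y hy σ⟩ : TT J ℓ)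

variable {J ℓ} in
theorem pt_kum (y : J) (hy : ∀ τ : GQ, τ • (ℓ • y) = ℓ • y) (σ : GQ) :
    pt (kum ℓ y hy σ) = σ • y - y := rfl

variable {J ℓ} in
/-- The Kummer cochain is a level-`S` cocycle. -/
theorem kum_mem_Z1 [Fact ℓ.Prime] (S : Finset Nat.Primes) (y : J) (hy : ∀ τ : GQ, τ • (ℓ • y) = ℓ • y)
    (hopen : ∃ E : IntermediateField ℚ Qb, FiniteDimensional ℚ E ∧
      ∀ σ : GQ, (∀ e ∈ E, σ e = e) → σ • y = y)
    (hin : ∀ q : Nat.Primes, q ∉ S → ∀ A : ValuationSubring Qb, A.LiesOverPrime (q : ℕ) →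
      ∀ g ∈ A.inertiaSubgroupIn ℚ, g • y = y) :
    kum ℓ y hy ∈ Z1 (globalLevel S) (torsRep J ℓ) := by
  obtain ⟨F, hF, hFy⟩ := exists_isUnramifiedOutside_fixing S y hopen hin
  refine ⟨⟨F.fixingSubgroup, ⟨F, hF, rfl⟩, fun g s hs => pt_injective ?_⟩,
    (mem_cocycles₁_iff (A := torsRep J ℓ) _).2 fun g h => pt_injective ?_⟩
  · rw [pt_kum, pt_kum, mul_smul, hFy s hs]
  · rw [pt_add, pt_ρ, pt_kum, pt_kum, pt_kum, mul_smul, smul_sub]
    abel

variable {J ℓ} in
/-- If the Kummer cochains of two roots differ by a coboundary, the difference of the roots is,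
up to `ℓ`-torsion, Galois-fixed. -/
theorem exists_fixed_of_kum_sub (y y' : J) (hy : ∀ τ : GQ, τ • (ℓ • y) = ℓ • y)
    (hy' : ∀ τ : GQ, τ • (ℓ • y') = ℓ • y')
    (h : kum ℓ y hy - kum ℓ y' hy' ∈ coboundaries₁ (torsRep J ℓ)) :
    ∃ z : J, (∀ τ : GQ, τ • z = z) ∧ ℓ • z = ℓ • y - ℓ • y' := by
  obtain ⟨t, ht⟩ := h
  refine ⟨y - y' - pt (J := J) (ℓ := ℓ) t, fun τ => ?_, ?_⟩
  · have h1 := congrFun ht τ
    rw [d₀₁_hom_apply] at h1
    have h2 : τ • pt (J := J) (ℓ := ℓ) t - pt (J := J) (ℓ := ℓ) t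
        = (τ • y - y) - (τ • y' - y') :=
      congrArg (pt (J := J) (ℓ := ℓ)) h1
    have h3 : τ • pt (J := J) (ℓ := ℓ) t
        = (τ • y - y) - (τ • y' - y') + pt (J := J) (ℓ := ℓ) t := by
      rw [← h2]; abel
    rw [smul_sub, smul_sub, h3]
    abel
  · rw [nsmul_sub, nsmul_sub, nsmul_pt, sub_zero]

end Tors

/-! ### The theorem -/

section Main

variable {J : Type} [AddCommGroup J] [DistribMulAction GQ J]

attribute [local instance] modTT

/-- **Abstract weak Mordell–Weil.**  See the file header. -/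
theorem finiteIndex_range_nsmul (ℓ : ℕ) [Fact ℓ.Prime] (hℓ2 : ℓ ≠ 2) (S : Finset Nat.Primes)
    (hℓS : pPrime ℓ ∈ S)
    (hfin : Finite ↥(Submodule.torsionBy ℤ J (ℓ : ℤ)))
    (hopen : ∀ y : J, ∃ E : IntermediateField ℚ Qb, FiniteDimensional ℚ E ∧
      ∀ σ : GQ, (∀ e ∈ E, σ e = e) → σ • y = y)
    (hinert : ∀ q : Nat.Primes, q ∉ S → ∀ A : ValuationSubring Qb, A.LiesOverPrime (q : ℕ) →
      ∀ σ ∈ A.inertiaSubgroupIn ℚ, ∀ y : J, (∀ τ : GQ, τ • (ℓ • y) = ℓ • y) → σ • y = y)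
    (hdiv : ∀ x : J, (∀ τ : GQ, τ • x = x) → ∃ y : J, ℓ • y = x) :
    (nsmulAddMonoidHom (α := ↥(FixedPoints.addSubgroup GQ J)) ℓ).range.FiniteIndex := by
  classical
  have : Finite (TT J ℓ) := hfin
  have : NeZero ℓ := ⟨(Fact.out : ℓ.Prime).ne_zero⟩
  -- the module and its cohomology
  have hinert0 : ∀ q : Nat.Primes, q ∉ S → ∀ A : ValuationSubring Qb, A.LiesOverPrime (q : ℕ) →
      ∀ σ ∈ A.inertiaSubgroupIn ℚ, ∀ y : J, ℓ • y = 0 → σ • y = y := by
    intro q hq A hA σ hσ y hy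
    exact hinert q hq A hA σ hσ y (fun τ => by rw [hy, smul_zero])
  have hdisc : IsDisc (globalLevel S) (torsRep J ℓ) := isDisc_torsRep S hopen hinert0
  obtain ⟨inv, hyp, -⟩ := Uncond.exists_inv_hyp hℓ2 S hℓS
  have hfinH1 : Module.Finite (ZMod ℓ) (Abs.H1 (globalLevel S) (torsRep J ℓ)) :=
    hyp.fin_H1 _ hdisc
  have : Finite (Abs.H1 (globalLevel S) (torsRep J ℓ)) := Module.finite_of_finite (ZMod ℓ)
  -- roots of the fixed points
  have hfixed : ∀ x : ↥(FixedPoints.addSubgroup GQ J), ∀ τ : GQ, τ • (x : J) = x :=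
    fun x => (FixedPoints.mem_addSubgroup GQ J (x : J)).1 x.2
  choose y hy using fun x : ↥(FixedPoints.addSubgroup GQ J) => hdiv (x : J) (hfixed x)
  have hy' : ∀ (x : ↥(FixedPoints.addSubgroup GQ J)) (τ : GQ), τ • (ℓ • y x) = ℓ • y x :=
    fun x τ => by rw [hy x]; exact hfixed x τ
  have hZ : ∀ x : ↥(FixedPoints.addSubgroup GQ J),
      kum ℓ (y x) (hy' x) ∈ Z1 (globalLevel S) (torsRep J ℓ) := fun x =>
    kum_mem_Z1 S (y x) (hy' x) (hopen (y x))
      (fun q hq A hA g hg => hinert q hq A hA g hg (y x) (hy' x))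
  let κ : ↥(FixedPoints.addSubgroup GQ J) → Abs.H1 (globalLevel S) (torsRep J ℓ) := fun x =>
    Submodule.Quotient.mk ⟨kum ℓ (y x) (hy' x), hZ x⟩
  -- equal classes differ by `ℓ • z`
  have key : ∀ x x' : ↥(FixedPoints.addSubgroup GQ J), κ x = κ x' →
      x - x' ∈ (nsmulAddMonoidHom (α := ↥(FixedPoints.addSubgroup GQ J)) ℓ).range := by
    intro x x' hκ
    have h1 : kum ℓ (y x) (hy' x) - kum ℓ (y x') (hy' x') ∈ coboundaries₁ (torsRep J ℓ) := by
      have h2 := (Submodule.Quotient.eq _).1 hκ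
      exact h2
    obtain ⟨z, hz, hzl⟩ := exists_fixed_of_kum_sub (y x) (y x') (hy' x) (hy' x') h1
    refine ⟨⟨z, (FixedPoints.mem_addSubgroup GQ J z).2 hz⟩, Subtype.ext ?_⟩
    show ℓ • z = (x : J) - (x' : J)
    rw [hzl, hy x, hy x']
  -- the quotient is finite
  have : Finite (↥(FixedPoints.addSubgroup GQ J) ⧸
      (nsmulAddMonoidHom (α := ↥(FixedPoints.addSubgroup GQ J)) ℓ).range) := by
    refine Finite.of_injective (fun q => κ (Quotient.out q)) fun q q' hqq' => ?_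
    have h1 := key (Quotient.out q') (Quotient.out q) hqq'.symm
    rw [← QuotientAddGroup.out_eq' q, ← QuotientAddGroup.out_eq' q', QuotientAddGroup.eq,
      neg_add_eq_sub]
    exact h1
  exact AddSubgroup.finiteIndex_of_finite_quotient

end Main

end Fermat.Agent.S17.W.AbstractWeakMW
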