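/-
S17 (program MW), strand W, leaf W-UNR: the Hecke-free inertia half of the landed S37 closure.

For a prime `ℓ ∤ N`, a valuation ring `A` of `ℚ̄` over `ℓ`, `τ` in the inertia group of `A` and
`m` prime to `ℓ`:

* `eq_of_nsmul_sub_eq_zero` : `m • (τ • y - y) = 0 ⟹ τ • y = y` for EVERY class `y : JZero N`;
* `smul_eq_of_nsmul_fixed`  : `τ • (m • y) = m • y ⟹ τ • y = y`
  ("the field of definition of `m⁻¹ x` is unramified outside `m N`");
* `smul_eq_of_nsmul_mem_fixedPoints` : the same for `m • y` Galois-fixed;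
* `hinert`, `hinert_badPrimes` : the binder shape of the abstract weak Mordell-Weil theorem
  (for every prime `q` outside a finite set `S ⊇ {q ∣ N m}`).

No `HeckeOperatorsCommuteBar` hypothesis is used: the divisor `τ E - E` is an inertia generator
of `Kummer.D0`, so `(RED)` (`Final.red_of_chartData` / `red_small`, fed by `Fn.Penult` and
`Fn.InvFinal`) applies to a function with divisor `m (τ E - E)`, and `E4.k1` extracts the
`m`-th root.  This is the second half of `S37/Kummer.eq_zero_of_mem_K0`, for one generator.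
-/
import Fermat.Agent.S37.Fn.Penult
import Fermat.Agent.S37.Fn.InvFinal
import Fermat.Agent.Lib.Frobenius

set_option autoImplicit false
set_option linter.unusedSectionVars false
set_option linter.style.haveILetI false
set_option synthInstance.maxHeartbeats 400000
set_option maxHeartbeats 1000000

noncomputable section

namespace Fermat.Agent.S17.W.Unram

open ModularCurve AlgebraicCurve HahnSeries
open Fermat.Agent.S30 Fermat.Agent.S37 Fermat.Agent.S37.Fn

local notation "Qb" => AlgebraicClosure ℚ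
local notation "Gq" => (AlgebraicClosure ℚ ≃ₐ[ℚ] AlgebraicClosure ℚ)

/-- **(RED) at every good prime**, with no hypothesis: the three chart cases of
`Final.result_of_chartData`, discharged by `Fn.Penult` and `Fn.InvFinal`. -/
theorem red_all (N ℓ : ℕ) [NeZero N] [NeZero ℓ] (hℓ : ℓ.Prime) (hℓN : ¬ ℓ ∣ N)
    (A : ValuationSubring Qb) (hA : A.LiesOverPrime ℓ) (σ₀ : Gq) (hσ₀ : A.IsFrobeniusAt σ₀ ℓ)
    (h : HeckeInputsAlong Qb N ℓ) : Kummer.RED N ℓ h A σ₀ := by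
  by_cases h3lt : 3 < ℓ
  · exact Final.red_of_chartData N ℓ hℓ hℓN A hA σ₀ hσ₀ h
      (Penult.chartData_j N ℓ hℓ h3lt hℓN A hA h (InvFinal.invPlaces_j N ℓ hℓ h3lt hℓN A hA))
  · have hle : ℓ ≤ 3 := not_lt.mp h3lt
    have h2le : 2 ≤ ℓ := hℓ.two_le
    obtain rfl | rfl : ℓ = 3 ∨ ℓ = 2 := by
      rcases Nat.lt_or_ge ℓ 3 with h | h
      · right; omega
      · left; omega
    · -- `ℓ = 3`, auxiliary level `N * 2`
      have hNr : ¬ 3 ∣ N * 2 := by
        intro hd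
        rcases (Nat.Prime.dvd_mul Nat.prime_three).1 hd with hd | hd
        · exact hℓN hd
        · exact absurd hd (by decide)
      exact Final.red_small N 2 3 hℓ hNr A hA σ₀ hσ₀ h
        (fun h' => Penult.chartData_three N hℓN A hA h' (InvFinal.invPlaces_three N hℓN A hA))
    · -- `ℓ = 2`, auxiliary level `N * 3`
      have hNr : ¬ 2 ∣ N * 3 := by
        intro hd
        rcases (Nat.Prime.dvd_mul Nat.prime_two).1 hd with hd | hd
        · exact hℓN hd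
        · exact absurd hd (by decide)
      exact Final.red_small N 3 2 hℓ hNr A hA σ₀ hσ₀ h
        (fun h' => Penult.chartData_two N hℓN A hA h' (InvFinal.invPlaces_two N hℓN A hA))

/-- **Kummer core, for one divisor.**  A degree-zero divisor `D` of `Kummer.D0` whose class is
killed by `m` (`ℓ ∤ m`) is principal - `(RED)` + `(K1)`, no Hecke hypothesis. -/
theorem mk_eq_zero_of_mem_D0 (N ℓ m : ℕ) [NeZero N] [NeZero ℓ] (hℓm : ¬ ℓ ∣ m)
    (h : HeckeInputsAlong Qb N ℓ) (A : ValuationSubring Qb) (σ₀ : Gq)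
    (hRED : Kummer.RED N ℓ h A σ₀) (hK1 : E4.K1 N ℓ A)
    (D : Divisor Qb (Kummer.Fb N))
    (hDdeg : D ∈ Divisor.degZero (K := Qb) (F := Kummer.Fb N))
    (hD0 : D ∈ Kummer.D0 N ℓ h A σ₀)
    (hy : m • (Pic0.mk ⟨D, hDdeg⟩ : JZero N) = 0) :
    (Pic0.mk ⟨D, hDdeg⟩ : JZero N) = 0 := by
  have hm0 : m ≠ 0 := fun h0 => hℓm (h0 ▸ dvd_zero ℓ)
  -- `m • D` is principal
  have hprin : m • D ∈ Divisor.principal (K := Qb) (F := Kummer.Fb N) := by
    have h1 : (Pic0.mk (m • (⟨D, hDdeg⟩ : Divisor.degZero (K := Qb) (F := Kummer.Fb N))) :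
        JZero N) = 0 := hy
    have h2 := (QuotientAddGroup.eq_zero_iff _).1 h1
    rw [AddSubgroup.mem_addSubgroupOf] at h2
    exact h2
  obtain ⟨f, hf0, hf⟩ := hprin
  obtain ⟨c, U, W, hU, hW, hc, hred, hred0, hfW⟩ :=
    hRED f hf0 ⟨m • D, AddSubgroup.nsmul_mem _ hD0 _, hf⟩
  set U' : Kummer.Fb N := ⟨_, hU⟩ with hU'
  set W' : Kummer.Fb N := ⟨_, hW⟩ with hW'
  have hU0 : U' ≠ 0 := Kummer.ne_zero_of_red_ne_zero A hU hred0
  have hW0 : W' ≠ 0 := Kummer.ne_zero_of_red_ne_zero A hW (hred ▸ hred0)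
  have hc' : algebraMap Qb (Kummer.Fb N) c ≠ 0 :=
    (map_ne_zero (algebraMap Qb (Kummer.Fb N))).2 hc
  obtain ⟨H, hH⟩ := hK1 m hℓm U W hU hW hred hred0 (fun P => by
    have h1 := P.ord_mul hf0 hW0
    have h2 := P.ord_mul hc' hU0
    rw [hfW, h2, Kummer.ord_algebraMap_eq_zero P hc] at h1
    have h3 : P.ord U' - P.ord W' = P.ord f := by linarith
    rw [h3, ← hf P]
    exact ⟨D P, by simp⟩)
  have hH' : U' = H ^ m * W' := Subtype.ext hH
  have hH0 : H ≠ 0 := by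
    rintro rfl
    rw [zero_pow hm0, zero_mul] at hH'
    exact hU0 hH'
  have hfH : f = algebraMap Qb (Kummer.Fb N) c * H ^ m := by
    have h1 : f * W' = (algebraMap Qb (Kummer.Fb N) c * H ^ m) * W' := by
      rw [hfW, hH']; ring
    exact mul_right_cancel₀ hW0 h1
  -- `D` is the divisor of `H`
  have hDH : ∀ P : Place Qb (Kummer.Fb N), D P = P.ord H := by
    intro P
    have h1 : P.ord f = ((m : ℕ) : ℤ) * P.ord H := by
      rw [hfH, P.ord_mul hc' (pow_ne_zero _ hH0), Kummer.ord_algebraMap_eq_zero P hc, zero_add,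
        Kummer.ord_pow]
    have h2 : (m • D) P = ((m : ℕ) : ℤ) * D P := by
      simp
    have h3 : ((m : ℕ) : ℤ) * D P = ((m : ℕ) : ℤ) * P.ord H := by
      rw [← h2, hf P, h1]
    exact mul_left_cancel₀ (by exact_mod_cast hm0) h3
  have hDprin : D ∈ Divisor.principal (K := Qb) (F := Kummer.Fb N) := ⟨H, hH0, hDH⟩
  exact (QuotientAddGroup.eq_zero_iff _).2 (by
    rw [AddSubgroup.mem_addSubgroupOf]
    exact hDprin)

/-- **W-UNR, coboundary form.**  For `ℓ ∤ N`, `A` over `ℓ`, `τ` in the inertia group of `A` and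
`m` prime to `ℓ`: an `m`-torsion class of the form `τ • y - y` vanishes. -/
theorem eq_of_nsmul_sub_eq_zero (N ℓ m : ℕ) [NeZero N] (hℓ : ℓ.Prime) (hℓN : ¬ ℓ ∣ N)
    (hℓm : ¬ ℓ ∣ m) (A : ValuationSubring Qb) (hA : A.LiesOverPrime ℓ) (τ : Gq)
    (hτ : τ ∈ A.inertiaSubgroupIn ℚ) (y : JZero N) (hy : m • (τ • y - y) = 0) :
    τ • y = y := by
  haveI : NeZero ℓ := ⟨hℓ.ne_zero⟩
  obtain ⟨σ₀, hσ₀⟩ := Fermat.Agent.Lib.Frobenius.exists_isFrobeniusAt A hℓ hA
  have h : HeckeInputsAlong Qb N ℓ := HeckeInputs.heckeInputsAlong N ℓ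
  have hRED : Kummer.RED N ℓ h A σ₀ := red_all N ℓ hℓ hℓN A hA σ₀ hσ₀ h
  have hK1 : E4.K1 N ℓ A := E4.k1 N ℓ hℓ hℓN A hA
  obtain ⟨E, rfl⟩ := Pic0.mk_surjective y
  -- the divisor `D = τ E - E` is an inertia generator of `D0`
  have hE1 : Kummer.gD N τ (E : Divisor Qb (Kummer.Fb N)) ∈
      Divisor.degZero (K := Qb) (F := Kummer.Fb N) := SemilinearAut.smul_mem_degZero _ E.2
  have hDdeg : Kummer.gD N τ (E : Divisor Qb (Kummer.Fb N)) - (E : Divisor Qb (Kummer.Fb N)) ∈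
      Divisor.degZero (K := Qb) (F := Kummer.Fb N) := AddSubgroup.sub_mem _ hE1 E.2
  have hD0 : Kummer.gD N τ (E : Divisor Qb (Kummer.Fb N)) - (E : Divisor Qb (Kummer.Fb N)) ∈
      Kummer.D0 N ℓ h A σ₀ :=
    AddSubgroup.subset_closure (Or.inl ⟨τ, hτ, (E : Divisor Qb (Kummer.Fb N)), rfl⟩)
  have hG : τ • (Pic0.mk E : JZero N) =
      Pic0.mk (⟨Kummer.gD N τ (E : Divisor Qb (Kummer.Fb N)), hE1⟩ :
        Divisor.degZero (K := Qb) (F := Kummer.Fb N)) := rfl
  have hcls : τ • (Pic0.mk E : JZero N) - Pic0.mk E =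
      Pic0.mk (⟨Kummer.gD N τ (E : Divisor Qb (Kummer.Fb N)) - (E : Divisor Qb (Kummer.Fb N)),
        hDdeg⟩ : Divisor.degZero (K := Qb) (F := Kummer.Fb N)) := by
    rw [hG]
    rfl
  rw [hcls] at hy
  exact sub_eq_zero.mp
    (hcls.trans (mk_eq_zero_of_mem_D0 N ℓ m hℓm h A σ₀ hRED hK1 _ hDdeg hD0 hy))

/-- **W-UNR.**  For `ℓ ∤ N`, `A` over `ℓ`, `τ` in the inertia group of `A` and `m` prime to `ℓ`:
if `τ` fixes `m • y` then `τ` fixes `y`. -/
theorem smul_eq_of_nsmul_fixed (N ℓ m : ℕ) [NeZero N] (hℓ : ℓ.Prime) (hℓN : ¬ ℓ ∣ N)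
    (hℓm : ¬ ℓ ∣ m) (A : ValuationSubring Qb) (hA : A.LiesOverPrime ℓ) (τ : Gq)
    (hτ : τ ∈ A.inertiaSubgroupIn ℚ) (y : JZero N) (hy : τ • (m • y) = m • y) :
    τ • y = y := by
  refine eq_of_nsmul_sub_eq_zero N ℓ m hℓ hℓN hℓm A hA τ hτ y ?_
  have h1 : m • (τ • y) = τ • (m • y) := smul_comm m τ y
  rw [nsmul_sub, h1, hy, sub_self]

/-- **W-UNR for rational classes.**  If `m • y` is fixed by the whole Galois group, then the
inertia group at every place over a prime `ℓ ∤ m N` fixes `y`. -/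
theorem smul_eq_of_nsmul_mem_fixedPoints (N ℓ m : ℕ) [NeZero N] (hℓ : ℓ.Prime) (hℓN : ¬ ℓ ∣ N)
    (hℓm : ¬ ℓ ∣ m) (A : ValuationSubring Qb) (hA : A.LiesOverPrime ℓ) (τ : Gq)
    (hτ : τ ∈ A.inertiaSubgroupIn ℚ) (y : JZero N)
    (hy : m • y ∈ FixedPoints.addSubgroup Gq (JZero N)) : τ • y = y :=
  smul_eq_of_nsmul_fixed N ℓ m hℓ hℓN hℓm A hA τ hτ y
    ((show ∀ g : Gq, g • (m • y) = m • y from hy) τ)

/-! ### The `hinert` shape consumed by the abstract weak Mordell-Weil theorem -/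

/-- The finite set of primes dividing `N * m`, as a `Finset Nat.Primes`. -/
def badPrimes (N m : ℕ) : Finset Nat.Primes := (N * m).primeFactors.subtype Nat.Prime

theorem mem_badPrimes_of_dvd {N m : ℕ} (hN : N ≠ 0) (hm0 : m ≠ 0) {q : Nat.Primes}
    (hd : (q : ℕ) ∣ N * m) : q ∈ badPrimes N m :=
  Finset.mem_subtype.mpr (Nat.mem_primeFactors.mpr ⟨q.2, hd, Nat.mul_ne_zero hN hm0⟩)

theorem not_dvd_of_not_mem_badPrimes {N m : ℕ} (hN : N ≠ 0) (hm0 : m ≠ 0) {q : Nat.Primes}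
    (hq : q ∉ badPrimes N m) : ¬ (q : ℕ) ∣ N * m :=
  fun hd => hq (mem_badPrimes_of_dvd hN hm0 hd)

/-- **The `hinert` shape of the abstract weak Mordell-Weil theorem** (strand W): outside a finite
set `S` of primes containing the prime divisors of `N * m`, inertia fixes every `m`-th root of a
Galois-fixed class. -/
theorem hinert (N : ℕ) [NeZero N] {m : ℕ} (S : Finset Nat.Primes)
    (hS : ∀ q : Nat.Primes, (q : ℕ) ∣ N * m → q ∈ S) :
    ∀ q : Nat.Primes, q ∉ S → ∀ A : ValuationSubring Qb, A.LiesOverPrime (q : ℕ) →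
      ∀ σ ∈ A.inertiaSubgroupIn ℚ, ∀ y : JZero N,
        (∀ τ : Gq, τ • (m • y) = m • y) → σ • y = y := by
  intro q hqS A hA σ hσ y hy
  have hqNm : ¬ (q : ℕ) ∣ N * m := fun hd => hqS (hS q hd)
  have hqN : ¬ (q : ℕ) ∣ N := fun hd => hqNm (Dvd.dvd.mul_right hd m)
  have hqm : ¬ (q : ℕ) ∣ m := fun hd => hqNm (Dvd.dvd.mul_left hd N)
  exact smul_eq_of_nsmul_fixed N q m q.2 hqN hqm A hA σ hσ y (hy σ)

/-- `hinert` for the canonical finite set `badPrimes N m`. -/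
theorem hinert_badPrimes (N : ℕ) [NeZero N] {m : ℕ} (hm0 : m ≠ 0) :
    ∀ q : Nat.Primes, q ∉ badPrimes N m → ∀ A : ValuationSubring Qb, A.LiesOverPrime (q : ℕ) →
      ∀ σ ∈ A.inertiaSubgroupIn ℚ, ∀ y : JZero N,
        (∀ τ : Gq, τ • (m • y) = m • y) → σ • y = y :=
  hinert N (badPrimes N m) (fun _ hd => mem_badPrimes_of_dvd (NeZero.ne N) hm0 hd)

end Fermat.Agent.S17.W.Unram
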