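/-
S17 (program MW), strand W, the exit: weak Mordell-Weil for `J_0(N)` from divisibility.

`weakMW_of_divisible : Divisible N → WeakMW N` (the two Props of `S17/Contract.lean`).

For an odd prime `l` such that every Galois-fixed class of `JZero N` is divisible by `l` in
`JZero N`, the abstract weak Mordell-Weil theorem (`AbstractWeakMW.finiteIndex_range_nsmul`)
applies to `J := JZero N` and the finite set `S := Unram.badPrimes N l` of the primes dividing
`N * l`:

* the `l`-torsion is finite                         (`S19.TorsionFinite.finite_torsion`);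
* every class is fixed by `Gal(ℚ̄/E)`, `E` a number field   (`S19.GalLevel.exists_fd_fixing`);
* inertia outside `S` fixes the `l`-th roots of Galois-fixed classes (`Unram.hinert_badPrimes`);
* Galois-fixed classes are divisible by `l`          (the hypothesis).

Exits:

* `finiteIndex_of_divisible_fixed_at` : one odd prime, divisibility of the Galois-fixed classes;
* `finiteIndex_of_divisible_at`       : one odd prime, divisibility of all classes;
* `weakMW_of_divisible_fixed`         : `WeakMW N` from divisibility of the Galois-fixed classes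
  at every large prime (a weaker door than the contract's `Divisible N`);
* `weakMW_of_divisible`               : the contract exit of strand W.
-/
import Fermat.Agent.S17.Contract
import Fermat.Agent.S17.W.AbstractWeakMW
import Fermat.Agent.S17.W.Unram
import Fermat.Agent.S19.TorsionFinite
import Fermat.Agent.S19.GalLevel
import Fermat.Agent.S30.HeckeInputs

set_option autoImplicit false

open ModularCurve AlgebraicCurve

namespace Fermat.Agent.S17.W

/-- **Weak Mordell-Weil at one odd prime**: if every Galois-fixed class of `JZero N` is divisible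
by `l` in `JZero N`, then `l • MW N` has finite index in `MW N`. -/
theorem finiteIndex_of_divisible_fixed_at (N : ℕ) [NeZero N] (l : ℕ) (hl : l.Prime)
    (hl2 : l ≠ 2)
    (hdiv : ∀ x : JZero N, (∀ σ : GalQ, σ • x = x) → ∃ y : JZero N, l • y = x) :
    (nsmulAddMonoidHom (α := ↥(MW N)) l).range.FiniteIndex := by
  haveI : Fact l.Prime := ⟨hl⟩
  haveI : Algebra.IsAlgebraic ℚ (AlgebraicClosure ℚ) := AlgebraicClosure.isAlgebraic ℚ
  haveI : HasPrincipalDivisors (AlgebraicClosure ℚ) ↥(modularFunctionFieldBar N) :=
    Fermat.Agent.S30.HeckeInputs.hasPrincipalDivisors_bar N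
  exact AbstractWeakMW.finiteIndex_range_nsmul (J := JZero N) l hl2 (Unram.badPrimes N l)
    (Unram.mem_badPrimes_of_dvd (NeZero.ne N) hl.ne_zero (Dvd.intro_left N rfl))
    (Fermat.Agent.S19.TorsionFinite.finite_torsion N l hl.pos)
    (fun y => Fermat.Agent.S19.GalLevel.exists_fd_fixing (L := AlgebraicClosure ℚ)
      (modularFunctionFieldFull N) y)
    (Unram.hinert_badPrimes N hl.ne_zero)
    hdiv

/-- **Weak Mordell-Weil at one odd prime**: if `JZero N` is `l`-divisible, then `l • MW N` has
finite index in `MW N`. -/
theorem finiteIndex_of_divisible_at (N : ℕ) [NeZero N] (l : ℕ) (hl : l.Prime) (hl2 : l ≠ 2)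
    (hdiv : ∀ x : JZero N, ∃ y : JZero N, l • y = x) :
    (nsmulAddMonoidHom (α := ↥(MW N)) l).range.FiniteIndex :=
  finiteIndex_of_divisible_fixed_at N l hl hl2 (fun x _ => hdiv x)

/-- **Weak Mordell-Weil from divisibility of the rational classes**: a weaker door than the
contract's `Divisible N` - only the Galois-fixed classes have to be divisible by `l` in
`JZero N`, for every large prime `l`. -/
theorem weakMW_of_divisible_fixed (N : ℕ) [NeZero N]
    (hD : ∃ L₀ : ℕ, ∀ l : ℕ, l.Prime → L₀ ≤ l →
      ∀ x : JZero N, (∀ σ : GalQ, σ • x = x) → ∃ y : JZero N, l • y = x) : WeakMW N := by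
  obtain ⟨L₀, hL₀⟩ := hD
  refine ⟨max 3 L₀, fun l hl hle => ?_⟩
  have h3 : 3 ≤ l := le_trans (le_max_left _ _) hle
  exact finiteIndex_of_divisible_fixed_at N l hl (by omega)
    (hL₀ l hl (le_trans (le_max_right _ _) hle))

/-- **Strand W exit**: weak Mordell-Weil for `J_0(N)` at every large prime, from divisibility. -/
theorem weakMW_of_divisible (N : ℕ) [NeZero N] (hN : N.Prime) (hN5 : 5 ≤ N)
    (hD : Divisible N) : WeakMW N := by
  obtain ⟨L₀, hL₀⟩ := hD
  exact weakMW_of_divisible_fixed N ⟨L₀, fun l hl hle x _ => hL₀ l hl hle x⟩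

end Fermat.Agent.S17.W
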