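import Mathlib
import Fermat.Agent.CFT.Global.CountV
import Fermat.Agent.S55.Glue.DualTwist

/-!
# Program MW (S17), strand W: abstract weak Mordell–Weil by Kummer theory

`Qb = AlgebraicClosure ℚ`, `Gq = Gal(Qb/ℚ)`, `J` an abelian group with an additive action of
`Gq` (no topology, no cohomology).  `l` is an odd prime, `S` a finite set of primes with `l ∈ S`.

* `exists_level_of_stabilizer` : a class with open stabiliser which is fixed by the inertia
  groups outside `S` is fixed by `Gal(Qb/F)` for some `F/ℚ` finite, unramified outside `S`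
  (the fixed field of the stabiliser).
* `inertia_fixes_of_specialisation` : if `sp : J →+ J'` is invariant under a subgroup `I`
  and injective on `l`-torsion, then every `σ ∈ I` fixing `l • R` fixes `R`.
* `levelHom S K V`, `finite_levelHom` : the additive maps `Gal(Qb/K) → V` of level `S`
  (`V` a finite `𝔽_l`-vector space, `μ_l ⊂ K`, `K` unramified outside `S`) are finitely many
  (`CountV.finrank_VS`).
* `finiteIndex_range_nsmul` : **weak Mordell–Weil.**  If every rational class is divisible by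
  `l` in `J`, the `l`-torsion of `J` is finite, and every `R` with `l • R` rational is fixed
  by `Gal(Qb/F)` for some `F/ℚ` finite unramified outside `S`, then `l • J^{Gq}` has finite
  index in `J^{Gq}`.
-/

set_option autoImplicit false
set_option linter.style.haveILetI false

open scoped NumberField IntermediateField
open ExtCitation

namespace Fermat.Agent.S17.W.KummerAbs

local notation "Qb" => AlgebraicClosure ℚ
local notation "Gq" => (AlgebraicClosure ℚ ≃ₐ[ℚ] AlgebraicClosure ℚ)

open Fermat.Agent.CFT.Global.CountV Fermat.Agent.S55.Glue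

variable {J : Type*} [AddCommGroup J] [DistribMulAction Gq J]

/-! ### Levels -/

/-- A class with open stabiliser, fixed by the inertia groups outside `S`, is fixed by
`Gal(Qb/F)` for some finite `F/ℚ` unramified outside `S`. -/
theorem exists_level_of_stabilizer (S : Finset Nat.Primes) (R : J)
    (hsm : ∃ F₀ : IntermediateField ℚ Qb, FiniteDimensional ℚ F₀ ∧
      ∀ σ ∈ F₀.fixingSubgroup, σ • R = R)
    (hunr : ∀ q : Nat.Primes, q ∉ S → ∀ A : ValuationSubring Qb, A.LiesOverPrime (q : ℕ) →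
      ∀ σ ∈ A.inertiaSubgroupIn ℚ, σ • R = R) :
    ∃ F : IntermediateField ℚ Qb, F.IsUnramifiedOutside S ∧
      ∀ σ ∈ F.fixingSubgroup, σ • R = R := by
  classical
  obtain ⟨F₁, hF₁fd, hF₁⟩ := hsm
  haveI hAlg : Algebra.IsAlgebraic ℚ Qb := AlgebraicClosure.isAlgebraic ℚ
  haveI hAC : IsAlgClosure ℚ Qb := AlgebraicClosure.instIsAlgClosure ℚ
  haveI hgal : IsGalois ℚ Qb := inferInstance
  have hF₁H : F₁.fixingSubgroup ≤ MulAction.stabilizer Gq R :=
    fun σ hσ => MulAction.mem_stabilizer_iff.2 (hF₁ σ hσ)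
  have hopen : IsOpen ((MulAction.stabilizer Gq R : Subgroup Gq) : Set Gq) :=
    Subgroup.isOpen_mono hF₁H (IntermediateField.fixingSubgroup_isOpen F₁)
  have hclosed : IsClosed ((MulAction.stabilizer Gq R : Subgroup Gq) : Set Gq) :=
    Subgroup.isClosed_of_isOpen _ hopen
  let Ncl : ClosedSubgroup Gq := ⟨MulAction.stabilizer Gq R, hclosed⟩
  let F₀ : IntermediateField ℚ Qb := IntermediateField.fixedField (MulAction.stabilizer Gq R)
  have hfix : F₀.fixingSubgroup = MulAction.stabilizer Gq R :=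
    InfiniteGalois.fixingSubgroup_fixedField Ncl
  have hle : F₀ ≤ F₁ := by
    rw [← InfiniteGalois.fixedField_fixingSubgroup F₁, IntermediateField.le_iff_le, hfix]
    exact hF₁H
  have hF₀fd : FiniteDimensional ℚ F₀ :=
    FiniteDimensional.of_injective (IntermediateField.inclusion hle).toLinearMap
      (IntermediateField.inclusion_injective hle)
  refine ⟨F₀, ⟨hF₀fd, fun q hq A hA g hg => ?_⟩, fun σ hσ => ?_⟩
  · rw [hfix]
    exact MulAction.mem_stabilizer_iff.2 (hunr q hq A hA g hg)
  · rw [hfix] at hσ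
    exact MulAction.mem_stabilizer_iff.1 hσ

/-- If `sp` is invariant under `I` and injective on `l`-torsion, every `σ ∈ I` fixing `l • R`
fixes `R`. -/
theorem inertia_fixes_of_specialisation {J' : Type*} [AddCommGroup J'] (l : ℕ)
    (I : Subgroup Gq) (sp : J →+ J')
    (hsp : ∀ σ ∈ I, ∀ x : J, sp (σ • x) = sp x)
    (hinj : ∀ T : J, l • T = 0 → sp T = 0 → T = 0)
    {σ : Gq} (hσ : σ ∈ I) {R : J} (hR : σ • (l • R) = l • R) : σ • R = R := by
  have h1 : l • (σ • R - R) = 0 := by
    rw [nsmul_sub, smul_comm l σ R, hR, sub_self]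
  have h2 : sp (σ • R - R) = 0 := by
    rw [map_sub, hsp σ hσ R, sub_self]
  exact sub_eq_zero.1 (hinj _ h1 h2)

/-! ### Level-`S` homomorphisms -/

/-- The additive maps `Gal(Qb/K) → V` of level `S`: constant modulo `Gal(Qb/F)` for some
`F/ℚ` finite and unramified outside `S`. -/
def levelHom (S : Finset Nat.Primes) (K : IntermediateField ℚ Qb) (V : Type*) [AddCommGroup V] :
    Set (↥K.fixingSubgroup → V) :=
  {c | (∀ σ τ, c (σ * τ) = c σ + c τ) ∧
    ∃ F : IntermediateField ℚ Qb, F.IsUnramifiedOutside S ∧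
      ∀ g s : ↥K.fixingSubgroup, (s : Gq) ∈ F.fixingSubgroup → c (g * s) = c g}

/-- **Kummer finiteness.**  For `l` odd, `l ∈ S`, `K` a number field unramified outside `S`
containing a primitive `l`-th root of unity and `V` a finite `𝔽_l`-vector space, there are
only finitely many level-`S` additive maps `Gal(Qb/K) → V`. -/
theorem finite_levelHom {l : ℕ} [Fact l.Prime] (hl2 : l ≠ 2) {S : Finset Nat.Primes}
    (hlS : pPrime l ∈ S) (K : IntermediateField ℚ Qb) [NumberField K]
    (ζ : K) (hζ : IsPrimitiveRoot ζ l) (hK : K.IsUnramifiedOutside S)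
    (V : Type*) [AddCommGroup V] [Module (ZMod l) V] [Finite V] :
    (levelHom S K V).Finite := by
  classical
  haveI : NeZero l := ⟨(Fact.out : l.Prime).ne_zero⟩
  obtain ⟨ρ, -, hfin, -⟩ := finrank_VS S K ζ hζ hl2 hlS hK
  haveI : Finite ↥(VS l S K) := hfin
  haveI : Finite (Module.Dual (ZMod l) V) :=
    Finite.of_injective (fun f : Module.Dual (ZMod l) V => (f : V → ZMod l))
      DFunLike.coe_injective
  let f : ↥(levelHom S K V) → (Module.Dual (ZMod l) V → ↥(VS l S K)) := fun c φ =>
    ⟨fun σ => φ (c.1 σ), (mem_VS_iff _).2 ⟨fun σ τ => by rw [c.2.1, map_add], by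
      obtain ⟨F, hF, hcF⟩ := c.2.2
      exact ⟨F, hF, fun g s hs => by rw [hcF g s hs]⟩⟩⟩
  have hf : Function.Injective f := by
    intro c c' h
    apply Subtype.ext
    funext σ
    rw [← sub_eq_zero, ← Module.forall_dual_apply_eq_zero_iff (ZMod l)]
    intro φ
    have h1 : φ (c.1 σ) = φ (c'.1 σ) :=
      congrFun (congrArg Subtype.val (congrFun h φ)) σ
    rw [map_sub, h1, sub_self]
  haveI : Finite ↥(levelHom S K V) := Finite.of_injective f hf
  exact Set.toFinite _

/-! ### The field of the `l`-torsion -/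

/-- A number field, unramified outside `S`, containing `μ_l`, whose Galois group fixes the
`l`-torsion of `J`. -/
theorem exists_field (l : ℕ) [Fact l.Prime] (S : Finset Nat.Primes) (hlS : pPrime l ∈ S)
    (htors : {T : J | l • T = 0}.Finite)
    (hlevel : ∀ T : J, l • T = 0 → ∃ F : IntermediateField ℚ Qb,
      F.IsUnramifiedOutside S ∧ ∀ σ ∈ F.fixingSubgroup, σ • T = T) :
    ∃ K : IntermediateField ℚ Qb, K.IsUnramifiedOutside S ∧ cycloField l ≤ K ∧
      ∀ σ ∈ K.fixingSubgroup, ∀ T : J, l • T = 0 → σ • T = T := by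
  classical
  haveI : Finite ↥{T : J | l • T = 0} := htors.to_subtype
  choose F hF using fun T : ↥{T : J | l • T = 0} => hlevel T.1 T.2
  have hK₀ : (⨆ T, F T : IntermediateField ℚ Qb).IsUnramifiedOutside S := by
    haveI : ∀ T, FiniteDimensional ℚ (F T) := fun T => (hF T).1.1
    exact ⟨IntermediateField.finiteDimensional_iSup_of_finite,
      fun q hq A hA => inertia_le_fixingSubgroup_iSup (fun T => (hF T).1.2) q hq A hA⟩
  refine ⟨(⨆ T, F T) ⊔ cycloField l, hK₀.sup (isUnramifiedOutside_cycloField l hlS),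
    le_sup_right, ?_⟩
  intro σ hσ T hT
  have h1 : σ ∈ (F ⟨T, hT⟩).fixingSubgroup :=
    IntermediateField.fixingSubgroup_antitone ((le_iSup F ⟨T, hT⟩).trans le_sup_left) hσ
  exact (hF ⟨T, hT⟩).2 σ h1

/-! ### Weak Mordell–Weil -/

/-- **Abstract weak Mordell–Weil.**  `l` an odd prime in `S`.  If every `Gq`-fixed class of
`J` is divisible by `l` in `J`, the `l`-torsion of `J` is finite, and every `R` with `l • R`
fixed by `Gq` is fixed by `Gal(Qb/F)` for some `F/ℚ` finite and unramified outside `S`, then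
`l • J^{Gq}` has finite index in `J^{Gq}`. -/
theorem finiteIndex_range_nsmul (l : ℕ) [Fact l.Prime] (hl2 : l ≠ 2) (S : Finset Nat.Primes)
    (hlS : pPrime l ∈ S)
    (hdiv : ∀ P : J, (∀ σ : Gq, σ • P = P) → ∃ R : J, l • R = P)
    (htors : {T : J | l • T = 0}.Finite)
    (hlevel : ∀ R : J, (∀ σ : Gq, σ • (l • R) = l • R) →
      ∃ F : IntermediateField ℚ Qb, F.IsUnramifiedOutside S ∧
        ∀ σ ∈ F.fixingSubgroup, σ • R = R) :
    (nsmulAddMonoidHom (α := ↥(FixedPoints.addSubgroup Gq J)) l).range.FiniteIndex := by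
  classical
  haveI : NeZero l := ⟨(Fact.out : l.Prime).ne_zero⟩
  -- the field of the `l`-torsion
  obtain ⟨K, hK, hcyc, hKT⟩ := exists_field l S hlS htors
    (fun T hT => hlevel T (fun σ => by rw [hT, smul_zero]))
  haveI : FiniteDimensional ℚ K := hK.1
  haveI : NumberField K := { to_charZero := inferInstance, to_finiteDimensional := hK.1 }
  obtain ⟨ζ, hζ⟩ : ∃ ζ : K, IsPrimitiveRoot ζ l := by
    obtain ⟨ζ, hζ⟩ := HasEnoughRootsOfUnity.exists_primitiveRoot Qb l
    have hmem : ζ ∈ K := hcyc (IntermediateField.subset_adjoin ℚ _ hζ.pow_eq_one)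
    exact ⟨⟨ζ, hmem⟩, IsPrimitiveRoot.of_map_of_injective (f := K.val) hζ K.val.injective⟩
  -- the `l`-torsion as a finite `𝔽_l`-vector space
  let Tl : AddSubgroup J := (nsmulAddMonoidHom (α := J) l).ker
  have hTl : ∀ T : J, T ∈ Tl ↔ l • T = 0 := fun T => AddMonoidHom.mem_ker
  haveI : Finite ↥{T : J | l • T = 0} := htors.to_subtype
  haveI : Finite ↥Tl :=
    Finite.of_injective (fun x : ↥Tl => (⟨x.1, (hTl _).1 x.2⟩ : ↥{T : J | l • T = 0}))
      (fun x y h => Subtype.ext (congrArg Subtype.val h))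
  letI : Module (ZMod l) ↥Tl :=
    AddCommGroup.zmodModule (n := l) (fun x => Subtype.ext ((hTl _).1 x.2))
  -- division points of the rational classes
  have hfix : ∀ (P : ↥(FixedPoints.addSubgroup Gq J)) (σ : Gq), σ • (P : J) = P :=
    fun P σ => P.2 σ
  choose R hR using fun P : ↥(FixedPoints.addSubgroup Gq J) => hdiv (P : J) (hfix P)
  -- the Kummer cocycle
  have hc_mem : ∀ (P : ↥(FixedPoints.addSubgroup Gq J)) (σ : Gq), σ • R P - R P ∈ Tl := by
    intro P σ
    rw [hTl, nsmul_sub, smul_comm l σ (R P), hR, hfix P σ, sub_self]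
  let c : ↥(FixedPoints.addSubgroup Gq J) → Gq → ↥Tl := fun P σ => ⟨σ • R P - R P, hc_mem P σ⟩
  have hc_mul : ∀ (P : ↥(FixedPoints.addSubgroup Gq J)) (g s : Gq),
      ((c P (g * s) : ↥Tl) : J) = g • ((c P s : ↥Tl) : J) + ((c P g : ↥Tl) : J) := by
    intro P g s
    show (g * s) • R P - R P = g • (s • R P - R P) + (g • R P - R P)
    rw [mul_smul, smul_sub]
    abel
  -- restricted to `Gal(Qb/K)` it is a level-`S` homomorphism
  have hφ : ∀ P : ↥(FixedPoints.addSubgroup Gq J),
      (fun σ : ↥K.fixingSubgroup => c P (σ : Gq)) ∈ levelHom S K ↥Tl := by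
    intro P
    refine ⟨fun σ τ => ?_, ?_⟩
    · apply Subtype.ext
      have h1 := hc_mul P (σ : Gq) (τ : Gq)
      have h2 : (σ : Gq) • ((c P (τ : Gq) : ↥Tl) : J) = ((c P (τ : Gq) : ↥Tl) : J) :=
        hKT σ σ.2 _ ((hTl _).1 (c P (τ : Gq)).2)
      rw [h2, add_comm] at h1
      exact h1
    · obtain ⟨F, hF, hFR⟩ := hlevel (R P) (fun σ => by rw [hR, hfix P σ])
      refine ⟨F, hF, fun g s hs => ?_⟩
      apply Subtype.ext
      show ((g : Gq) * (s : Gq)) • R P - R P = (g : Gq) • R P - R P
      rw [mul_smul, hFR _ hs]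
  -- the finite set of data
  haveI : Finite ↥(levelHom S K ↥Tl) := (finite_levelHom hl2 hlS K ζ hζ hK ↥Tl).to_subtype
  let res : Gq → (↥K →ₐ[ℚ] Qb) := fun g => (g : Qb →ₐ[ℚ] Qb).comp K.val
  have hres : ∀ g g' : Gq, res g = res g' → g⁻¹ * g' ∈ K.fixingSubgroup := by
    intro g g' h
    rw [IntermediateField.mem_fixingSubgroup_iff]
    intro x hx
    have h1 : g x = g' x := DFunLike.congr_fun h (⟨x, hx⟩ : ↥K)
    show g⁻¹ (g' x) = x
    rw [← h1]
    exact g.symm_apply_apply x
  let lift : (↥K →ₐ[ℚ] Qb) → Gq := fun e => if h : ∃ g, res g = e then h.choose else 1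
  have hlift : ∀ g : Gq, res (lift (res g)) = res g := by
    intro g
    have h : ∃ g', res g' = res g := ⟨g, rfl⟩
    simp only [lift, dif_pos h]
    exact h.choose_spec
  let data : ↥(FixedPoints.addSubgroup Gq J) →
      ↥(levelHom S K ↥Tl) × ((↥K →ₐ[ℚ] Qb) → ↥Tl) := fun P =>
    (⟨fun σ => c P (σ : Gq), hφ P⟩, fun e => c P (lift e))
  -- equal data force equal cocycles
  have hkey : ∀ P P' : ↥(FixedPoints.addSubgroup Gq J), data P = data P' →
      ∀ σ : Gq, c P σ = c P' σ := by
    intro P P' h σ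
    have h1 : ∀ s : Gq, s ∈ K.fixingSubgroup → c P s = c P' s := fun s hs =>
      congrFun (congrArg Subtype.val (congrArg Prod.fst h)) ⟨s, hs⟩
    have h2 : ∀ e, c P (lift e) = c P' (lift e) := fun e => congrFun (congrArg Prod.snd h) e
    have hs : (lift (res σ))⁻¹ * σ ∈ K.fixingSubgroup := hres _ σ (hlift σ)
    have e : ∀ Q : ↥(FixedPoints.addSubgroup Gq J), ((c Q σ : ↥Tl) : J) =
        lift (res σ) • ((c Q ((lift (res σ))⁻¹ * σ) : ↥Tl) : J) +
          ((c Q (lift (res σ)) : ↥Tl) : J) := by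
      intro Q
      have h3 := hc_mul Q (lift (res σ)) ((lift (res σ))⁻¹ * σ)
      rwa [mul_inv_cancel_left] at h3
    apply Subtype.ext
    rw [e P, e P', h2 (res σ), h1 _ hs]
  -- equal cocycles force congruence modulo `l`
  have hfin : ∀ P P' : ↥(FixedPoints.addSubgroup Gq J), data P = data P' →
      P - P' ∈ (nsmulAddMonoidHom (α := ↥(FixedPoints.addSubgroup Gq J)) l).range := by
    intro P P' h
    have hc := hkey P P' h
    have hD : ∀ σ : Gq, σ • (R P - R P') = R P - R P' := by
      intro σ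
      have h3 : σ • R P - R P = σ • R P' - R P' := congrArg Subtype.val (hc σ)
      have h4 : σ • R P - σ • R P' = (σ • R P - R P) - (σ • R P' - R P') + (R P - R P') := by
        abel
      rw [smul_sub, h4, h3, sub_self, zero_add]
    refine ⟨⟨R P - R P', hD⟩, ?_⟩
    apply Subtype.ext
    show l • (R P - R P') = (P : J) - (P' : J)
    rw [nsmul_sub, hR, hR]
  rw [AddSubgroup.finiteIndex_iff_finite_quotient]
  refine Finite.of_injective
    (fun q : ↥(FixedPoints.addSubgroup Gq J) ⧸
      (nsmulAddMonoidHom (α := ↥(FixedPoints.addSubgroup Gq J)) l).range => data q.out) ?_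
  intro q q' h
  have h1 := hfin _ _ h
  rw [← QuotientAddGroup.out_eq' q, ← QuotientAddGroup.out_eq' q', QuotientAddGroup.eq]
  have h2 : -q.out + q'.out = -(q.out - q'.out) := by abel
  rw [h2]
  exact neg_mem h1

end Fermat.Agent.S17.W.KummerAbs
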