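import Fermat.Agent.S17.W.KummerAbs

/-!
# Program MW (S17), strand W: the Kummer weak Mordell–Weil in the exit shape

`KummerAbs.finiteIndex_range_nsmul` with its hypotheses in the shapes delivered by the landed
leaves: finite `l`-torsion as `Finite ↥(Submodule.torsionBy ℤ J l)` (S19 `finite_torsion`),
finite level as a finite-dimensional intermediate field fixed pointwise (S19 `exists_fd_fixing`)
and the inertia statement of `W/Unram.lean` (`hinert_badPrimes`).  The binders are those of the
twin `AbstractWeakMW.finiteIndex_range_nsmul`, so either file can feed `W/Exit.lean`.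
-/

set_option autoImplicit false

open scoped NumberField IntermediateField
open ExtCitation

namespace Fermat.Agent.S17.W.KummerDropIn

local notation "Qb" => AlgebraicClosure ℚ
local notation "Gq" => (AlgebraicClosure ℚ ≃ₐ[ℚ] AlgebraicClosure ℚ)

open Fermat.Agent.S17.W.KummerAbs

variable {J : Type*} [AddCommGroup J] [DistribMulAction Gq J]

/-- The `l`-torsion is a finite set as soon as `torsionBy ℤ J l` is finite. -/
theorem finite_setOf_nsmul_eq_zero (l : ℕ) (hfin : Finite ↥(Submodule.torsionBy ℤ J (l : ℤ))) :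
    {T : J | l • T = 0}.Finite := by
  have hf : Finite ↥{T : J | l • T = 0} := by
    refine Finite.of_injective (fun T : ↥{T : J | l • T = 0} =>
      (⟨T.1, (Submodule.mem_torsionBy_iff _ _).2 (by rw [natCast_zsmul]; exact T.2)⟩ :
        ↥(Submodule.torsionBy ℤ J (l : ℤ)))) ?_
    intro x y h
    have h' : (x : J) = y :=
      congrArg (fun T : ↥(Submodule.torsionBy ℤ J (l : ℤ)) => (T : J)) h
    exact Subtype.ext h'
  exact Set.toFinite _

/-- A class fixed by `Gal(Qb/E)` (`E/ℚ` finite) and by the inertia groups outside `S` has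
level `S`. -/
theorem exists_level_of_fd (S : Finset Nat.Primes) (R : J)
    (hopen : ∃ E : IntermediateField ℚ Qb, FiniteDimensional ℚ E ∧
      ∀ σ : Gq, (∀ e ∈ E, σ e = e) → σ • R = R)
    (hunr : ∀ q : Nat.Primes, q ∉ S → ∀ A : ValuationSubring Qb, A.LiesOverPrime (q : ℕ) →
      ∀ σ ∈ A.inertiaSubgroupIn ℚ, σ • R = R) :
    ∃ F : IntermediateField ℚ Qb, F.IsUnramifiedOutside S ∧
      ∀ σ ∈ F.fixingSubgroup, σ • R = R := by
  refine exists_level_of_stabilizer S R ?_ hunr
  obtain ⟨E, hE, hER⟩ := hopen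
  exact ⟨E, hE, fun σ hσ =>
    hER σ (fun e he => (IntermediateField.mem_fixingSubgroup_iff E σ).1 hσ e he)⟩

/-- **Abstract weak Mordell–Weil (Kummer route), exit shape.**  Same binders as
`AbstractWeakMW.finiteIndex_range_nsmul`, in any universe. -/
theorem finiteIndex_range_nsmul_of_inertia (l : ℕ) [Fact l.Prime] (hl2 : l ≠ 2)
    (S : Finset Nat.Primes) (hlS : pPrime l ∈ S)
    (hfin : Finite ↥(Submodule.torsionBy ℤ J (l : ℤ)))
    (hopen : ∀ y : J, ∃ E : IntermediateField ℚ Qb, FiniteDimensional ℚ E ∧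
      ∀ σ : Gq, (∀ e ∈ E, σ e = e) → σ • y = y)
    (hinert : ∀ q : Nat.Primes, q ∉ S → ∀ A : ValuationSubring Qb, A.LiesOverPrime (q : ℕ) →
      ∀ σ ∈ A.inertiaSubgroupIn ℚ, ∀ y : J, (∀ τ : Gq, τ • (l • y) = l • y) → σ • y = y)
    (hdiv : ∀ x : J, (∀ τ : Gq, τ • x = x) → ∃ y : J, l • y = x) :
    (nsmulAddMonoidHom (α := ↥(FixedPoints.addSubgroup Gq J)) l).range.FiniteIndex :=
  finiteIndex_range_nsmul l hl2 S hlS hdiv (finite_setOf_nsmul_eq_zero l hfin)
    (fun R hR => exists_level_of_fd S R (hopen R)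
      (fun q hq A hA σ hσ => hinert q hq A hA σ hσ R hR))

end Fermat.Agent.S17.W.KummerDropIn
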